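import Fermat.Agent.LT.T6.H830.HCSpec

/-!
# Row LT, tower T6, leaf T6.29.R1 = CARTAN-R (helper543)

OFF-MAIN.  `cartanRC_h543 : H830.CartanRC`, VERBATIM (`LT/T6/H830/HCSpec.lean`, helper830):
every `y ∈ GL₂(ℝ)` with `det y > 0` is `k_α · e^{ζ/2} a_t · k_β` with `t ≥ 0`.

Proof.  `y = [[a, b], [c, d]]` acts on `ℂ = ℝ²` by `w ↦ A w + B w̄`,
`A = ((a + d) + i (c - b)) / 2`, `B = ((a - d) + i (c + b)) / 2`, `|A|² - |B|² = det y > 0`.
With `φ = arg A`, `ψ = arg B`: `α = (φ + ψ) / 2`, `β = (φ - ψ) / 2`, `e^{(ζ + t)/2} = |A| + |B|`,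
`e^{(ζ - t)/2} = |A| - |B|`.
-/

set_option autoImplicit false

open scoped Matrix

noncomputable section

namespace Fermat.Agent.LT.T6.H543

open Fermat.Agent.LT.T6 Fermat.Agent.LT.T6.H830

/-- The real identity behind the Cartan decomposition. -/
theorem cartan_entries543 (a b c d : ℝ) (hdet : 0 < a * d - b * c) :
    ∃ ζ α β t : ℝ, 0 ≤ t ∧
      a = Real.cos α * Real.exp ((ζ + t) / 2) * Real.cos β
          - Real.sin α * Real.exp ((ζ - t) / 2) * Real.sin β ∧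
      b = -(Real.cos α * Real.exp ((ζ + t) / 2) * Real.sin β)
          - Real.sin α * Real.exp ((ζ - t) / 2) * Real.cos β ∧
      c = Real.sin α * Real.exp ((ζ + t) / 2) * Real.cos β
          + Real.cos α * Real.exp ((ζ - t) / 2) * Real.sin β ∧
      d = -(Real.sin α * Real.exp ((ζ + t) / 2) * Real.sin β)
          + Real.cos α * Real.exp ((ζ - t) / 2) * Real.cos β := by
  set A : ℂ := ⟨(a + d) / 2, (c - b) / 2⟩ with hA
  set B : ℂ := ⟨(a - d) / 2, (c + b) / 2⟩ with hB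
  have hAre : ‖A‖ * Real.cos (Complex.arg A) = (a + d) / 2 := Complex.norm_mul_cos_arg A
  have hAim : ‖A‖ * Real.sin (Complex.arg A) = (c - b) / 2 := Complex.norm_mul_sin_arg A
  have hBre : ‖B‖ * Real.cos (Complex.arg B) = (a - d) / 2 := Complex.norm_mul_cos_arg B
  have hBim : ‖B‖ * Real.sin (Complex.arg B) = (c + b) / 2 := Complex.norm_mul_sin_arg B
  have hsq : ‖B‖ ^ 2 < ‖A‖ ^ 2 := by
    rw [Complex.sq_norm, Complex.sq_norm, Complex.normSq_apply, Complex.normSq_apply]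
    show (a - d) / 2 * ((a - d) / 2) + (c + b) / 2 * ((c + b) / 2)
      < (a + d) / 2 * ((a + d) / 2) + (c - b) / 2 * ((c - b) / 2)
    nlinarith
  have hlt : ‖B‖ < ‖A‖ := lt_of_pow_lt_pow_left₀ 2 (norm_nonneg A) hsq
  have hB0 : 0 ≤ ‖B‖ := norm_nonneg B
  set L₁ : ℝ := ‖A‖ + ‖B‖ with hL₁
  set L₂ : ℝ := ‖A‖ - ‖B‖ with hL₂
  have hL₂pos : 0 < L₂ := sub_pos.mpr hlt
  have hL₁pos : 0 < L₁ := by linarith
  have hle : L₂ ≤ L₁ := by linarith
  set φ := Complex.arg A with hφ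
  set ψ := Complex.arg B with hψ
  refine ⟨Real.log L₁ + Real.log L₂, (φ + ψ) / 2, (φ - ψ) / 2, Real.log L₁ - Real.log L₂,
    sub_nonneg.mpr (Real.log_le_log hL₂pos hle), ?_⟩
  have e1 : Real.exp ((Real.log L₁ + Real.log L₂ + (Real.log L₁ - Real.log L₂)) / 2) = L₁ := by
    rw [show (Real.log L₁ + Real.log L₂ + (Real.log L₁ - Real.log L₂)) / 2 = Real.log L₁ by ring,
      Real.exp_log hL₁pos]
  have e2 : Real.exp ((Real.log L₁ + Real.log L₂ - (Real.log L₁ - Real.log L₂)) / 2) = L₂ := by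
    rw [show (Real.log L₁ + Real.log L₂ - (Real.log L₁ - Real.log L₂)) / 2 = Real.log L₂ by ring,
      Real.exp_log hL₂pos]
  rw [e1, e2]
  have cφ : Real.cos φ = Real.cos ((φ + ψ) / 2) * Real.cos ((φ - ψ) / 2)
      - Real.sin ((φ + ψ) / 2) * Real.sin ((φ - ψ) / 2) := by
    rw [← Real.cos_add]; congr 1; ring
  have sφ : Real.sin φ = Real.sin ((φ + ψ) / 2) * Real.cos ((φ - ψ) / 2)
      + Real.cos ((φ + ψ) / 2) * Real.sin ((φ - ψ) / 2) := by
    rw [← Real.sin_add]; congr 1; ring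
  have cψ : Real.cos ψ = Real.cos ((φ + ψ) / 2) * Real.cos ((φ - ψ) / 2)
      + Real.sin ((φ + ψ) / 2) * Real.sin ((φ - ψ) / 2) := by
    rw [← Real.cos_sub]; congr 1; ring
  have sψ : Real.sin ψ = Real.sin ((φ + ψ) / 2) * Real.cos ((φ - ψ) / 2)
      - Real.cos ((φ + ψ) / 2) * Real.sin ((φ - ψ) / 2) := by
    rw [← Real.sin_sub]; congr 1; ring
  rw [cφ] at hAre
  rw [sφ] at hAim
  rw [cψ] at hBre
  rw [sψ] at hBim
  refine ⟨?_, ?_, ?_, ?_⟩
  · rw [hL₁, hL₂]; linear_combination -hAre - hBre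
  · rw [hL₁, hL₂]; linear_combination hAim - hBim
  · rw [hL₁, hL₂]; linear_combination -hAim - hBim
  · rw [hL₁, hL₂]; linear_combination -hAre + hBre

/-- **T6.29.R1 = CARTAN-R**, verbatim. -/
theorem cartanRC_h543 : CartanRC := by
  intro y hy
  rw [Matrix.det_fin_two] at hy
  obtain ⟨ζ, α, β, t, ht, ha, hb, hc, hd⟩ := cartan_entries543 _ _ _ _ hy
  refine ⟨ζ, α, β, t, ht, ?_⟩
  apply Units.ext
  rw [Units.val_mul, Units.val_mul, coe_rotR830, coe_bR830, coe_rotR830]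
  ext i j
  fin_cases i <;> fin_cases j
  · simp only [Fin.zero_eta, Fin.isValue, Matrix.mul_apply, Fin.sum_univ_two, Matrix.of_apply,
      Matrix.cons_val', Matrix.cons_val_zero, Matrix.cons_val_fin_one, Matrix.cons_val_one]
    rw [ha]; ring
  · simp only [Fin.zero_eta, Fin.isValue, Fin.mk_one, Matrix.mul_apply, Fin.sum_univ_two,
      Matrix.of_apply, Matrix.cons_val', Matrix.cons_val_zero, Matrix.cons_val_fin_one,
      Matrix.cons_val_one]
    rw [hb]; ring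
  · simp only [Fin.zero_eta, Fin.isValue, Fin.mk_one, Matrix.mul_apply, Fin.sum_univ_two,
      Matrix.of_apply, Matrix.cons_val', Matrix.cons_val_zero, Matrix.cons_val_fin_one,
      Matrix.cons_val_one]
    rw [hc]; ring
  · simp only [Fin.mk_one, Fin.isValue, Matrix.mul_apply, Fin.sum_univ_two, Matrix.of_apply,
      Matrix.cons_val', Matrix.cons_val_zero, Matrix.cons_val_fin_one, Matrix.cons_val_one]
    rw [hd]; ring

end Fermat.Agent.LT.T6.H543

end
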